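import Fermat.Agent.FF4.KV2.Main
import Fermat.Agent.FF4.KV.BLRMorita

/-!
# PROGRAMME II (row 38, S44), kernel (K-V): KV-2 ∘ KV-3 plugged at `W[p]` (helper5)

The `W`-side glue for the consumer form of KV-3 (`FF4/KV/BLRMorita.exists_stable_subgroup_equiv`,
helper23) and its combination with KV-2 (`galois_quadratic_of_eigen`):

* `irreducible_submodule` : `W.ModRepIsIrreducible p` in the `Submodule` form for `rhoV W p`;
* `rhoV_cc_mul_self`, `rhoV_cc_ne_one`, `rhoV_cc_ne_neg_one` : complex conjugation acts on `W[p]` as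
  an involution `≠ ± 1` (`p` odd; from `det ρ̄(c) = -1`);
* **`exists_stable_subgroup_iso`** : a nonzero `G_ℚ`-stable subgroup `E` of `J₀(L)[p]` consisting of
  eigenvectors of the good `T_l` with the eigenvalues of `W` contains a `G_ℚ`-stable subgroup `V`
  with a `G_ℚ`-equivariant isomorphism `V ≃+ W[p](ℚ̄)` — the fields `V`, `stable`, `iso`,
  `iso_equivariant` of the skeleton's `VPack` (`tors`, `eigen` are inherited from `V ≤ E`).
-/

set_option autoImplicit false
set_option linter.unusedSectionVars false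
set_option linter.unusedVariables false
set_option linter.style.haveILetI false

open WeierstrassCurve WeierstrassCurve.Affine WeierstrassCurve.Affine.Point
open scoped WeierstrassCurve.Affine
open ModularCurve

namespace Fermat.Agent.FF4.KV2

open Fermat.Agent.LR.NonEis Fermat.Agent.Pseudo.Cyclo Fermat.Agent.Jac

local notation "Qb" => AlgebraicClosure ℚ
local notation "GQ" => (AlgebraicClosure ℚ ≃ₐ[ℚ] AlgebraicClosure ℚ)

section WSide

variable (W : WeierstrassCurve ℤ) (hΔ : W.Δ ≠ 0) {p : ℕ} (hp : p.Prime)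

/-- irreducibility in the `Submodule` form -/
theorem irreducible_submodule (hirr : W.ModRepIsIrreducible p) :
    ∀ U : Submodule (ZMod p) (Vp W p), (∀ g : GQ, ∀ x ∈ U, rhoV W p g x ∈ U) → U = ⊥ ∨ U = ⊤ :=
  fun U hU => hirr.2 U fun σ x hx => hU σ x hx

/-- complex conjugation acts as an involution -/
theorem rhoV_cc_mul_self :
    rhoV W p complexConjugation * rhoV W p complexConjugation = 1 := by
  rw [← map_mul, complexConjugation_mul_self, map_one]

include hΔ hp in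
theorem rhoV_cc_ne_one (hp2 : p ≠ 2) : rhoV W p complexConjugation ≠ 1 := by
  haveI : Fact p.Prime := ⟨hp⟩
  haveI : NeZero p := ⟨hp.ne_zero⟩
  intro h
  have hdet := det_rhoV_complexConjugation W hΔ hp
  rw [h] at hdet
  have h1 : LinearMap.det (1 : Module.End (ZMod p) (Vp W p)) = 1 := LinearMap.det_id
  rw [h1] at hdet
  -- `1 = -1` in `ZMod p`, `p` odd
  have h2 : (2 : ZMod p) = 0 := by linear_combination hdet
  exact Fermat.Agent.FF4.KV.BLRMorita.two_ne_zero_zmod hp2 h2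

include hΔ hp in
theorem rhoV_cc_ne_neg_one (hp2 : p ≠ 2) : rhoV W p complexConjugation ≠ -1 := by
  haveI : Fact p.Prime := ⟨hp⟩
  haveI : NeZero p := ⟨hp.ne_zero⟩
  intro h
  have hdet := det_rhoV_complexConjugation W hΔ hp
  rw [h] at hdet
  have h1 : LinearMap.det (-1 : Module.End (ZMod p) (Vp W p)) = 1 := by
    have h3 : (-1 : Module.End (ZMod p) (Vp W p)) = (-1 : ZMod p) • (1 : Module.End (ZMod p) (Vp W p)) := by
      rw [neg_smul, one_smul]
    rw [h3, (trace_det_smul_one (finrank_Vp W hΔ) (-1)).2]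
    ring
  rw [h1] at hdet
  have h2 : (2 : ZMod p) = 0 := by linear_combination hdet
  exact Fermat.Agent.FF4.KV.BLRMorita.two_ne_zero_zmod hp2 h2

end WSide

section Core

variable (W : WeierstrassCurve ℤ) (hΔ : W.Δ ≠ 0) {p : ℕ} (hp : p.Prime) (L : ℕ) [NeZero L]

include hΔ hp in
/-- **KV-2 ∘ KV-3 at `W[p]`.** -/
theorem exists_stable_subgroup_iso (hp2 : p ≠ 2) (hirr : W.ModRepIsIrreducible p)
    (E : AddSubgroup (JZero L)) (hpE : ∀ x ∈ E, p • x = 0)
    (hGE : ∀ σ : GQ, ∀ x ∈ E, σ • x ∈ E) (hne : ∃ x ∈ E, x ≠ 0) (T : Finset ℕ)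
    (heig : ∀ x ∈ E, ∀ l : Nat.Primes, (l : ℕ) ∉ T → W.IsGoodPrimeFor l → ¬ (l : ℕ) ∣ L →
      (l : ℕ) ≠ p → heckeOperatorBar L l x = (W.apOfModel l) • x) :
    ∃ V : AddSubgroup (JZero L), V ≤ E ∧ (∀ σ : GQ, ∀ v ∈ V, σ • v ∈ V) ∧
      ∃ iso : V ≃+ Vp W p, ∀ (σ : GQ) (v : V) (h : σ • (v : JZero L) ∈ V),
        ((iso ⟨σ • (v : JZero L), h⟩ : Vp W p) : ((WQ W)⁄Qb).Point) =
          σ • ((iso v : Vp W p) : ((WQ W)⁄Qb).Point) := by
  haveI : Fact p.Prime := ⟨hp⟩
  obtain ⟨V, hVE, hVstab, iso, hiso⟩ :=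
    Fermat.Agent.FF4.KV.BLRMorita.exists_stable_subgroup_equiv (p := p) (G := GQ)
      (T := Vp W p) (X := JZero L) hp2 (finrank_Vp W hΔ) (rhoV W p)
      (irreducible_submodule W hirr) (rhoV_cc_mul_self W) (rhoV_cc_ne_one W hΔ hp hp2)
      (rhoV_cc_ne_neg_one W hΔ hp hp2) E hpE hGE hne
      (fun σ x hx a d ha hd =>
        galois_quadratic_of_eigen W hΔ hp L T x (hpE x hx) (heig x hx) σ a d ha hd)
  exact ⟨V, hVE, hVstab, iso, fun σ v h => by rw [hiso σ v h]; rfl⟩

end Core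

end Fermat.Agent.FF4.KV2
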