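import Fermat.Agent.SW.K4.Done
import Fermat.Agent.EC.Coeff.Done
import Fermat.Agent.LR.NonEisCore
import Fermat.Agent.EC.Tor.Main

/-!
# PROGRAMME II (row 38, S44), kernel (K-V), leaf KV-2, part 1 (helper5):
the characteristic polynomial of a Frobenius element on `W[p](ℚ̄)`

`W` an integral Weierstrass model with `Δ ≠ 0`, `p` a prime, `l ≠ p` a prime of good reduction,
`φ` a Frobenius element at a place of `ℚ̄` over `l`, `ρ̄ := rhoV W p` the representation of `G_ℚ` on
`Vp W p = W[p](ℚ̄)` (vocabulary of `LR/NonEisCore`).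

* `trace_det_of_quadratic` : linear algebra in dimension two: an endomorphism `M` with
  `M² - a M + l = 0` has trace `a` and determinant `l`, provided this holds when `M` is a scalar;
* `card_Vp`, `finrank_Vp` : `# W[p] = p²`, `dim_{𝔽_p} W[p] = 2` (from `EC.Tor.Main.card_torsion`);
* `rhoV_frob_quadratic` : `ρ̄(φ)² - a_l ρ̄(φ) + l = 0` (landed Cayley–Hamilton
  `SW.K4.CharEq.frob_charEq`);
* **`trace_rhoV_frob`**, **`det_rhoV_frob`** : `tr ρ̄(φ) = a_l(W)`, `det ρ̄(φ) = l` in `𝔽_p`
  (the scalar case by the landed Frobenius eigenvalue criterion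
  `EC.Good.MainStar.good_eigen_all`).
-/

set_option autoImplicit false
set_option linter.unusedSectionVars false
set_option linter.unusedVariables false
set_option linter.style.haveILetI false

open WeierstrassCurve WeierstrassCurve.Affine WeierstrassCurve.Affine.Point Polynomial
open scoped WeierstrassCurve.Affine

namespace Fermat.Agent.FF4.KV2

open Fermat.Agent.LR.NonEis

local notation "Qb" => AlgebraicClosure ℚ
local notation "GQ" => (AlgebraicClosure ℚ ≃ₐ[ℚ] AlgebraicClosure ℚ)

/-! ### linear algebra in dimension two -/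

section LinAlg

variable {κ V : Type*} [Field κ] [AddCommGroup V] [Module κ V]

/-- the characteristic polynomial in dimension two -/
theorem charpoly_of_finrank_two (hV : Module.finrank κ V = 2) (M : Module.End κ V) :
    haveI : Module.Finite κ V := Module.finite_of_finrank_eq_succ hV
    M.charpoly = X ^ 2 - C (LinearMap.trace κ V M) * X + C (LinearMap.det M) := by
  haveI : Module.Finite κ V := Module.finite_of_finrank_eq_succ hV
  let b : Module.Basis (Fin 2) κ V := Module.finBasisOfFinrankEq κ V hV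
  rw [← LinearMap.charpoly_toMatrix M b, Matrix.charpoly_fin_two,
    LinearMap.trace_eq_matrix_trace κ b M, LinearMap.det_toMatrix b M]

/-- trace and determinant of a scalar in dimension two -/
theorem trace_det_smul_one (hV : Module.finrank κ V = 2) (c : κ) :
    LinearMap.trace κ V (c • (1 : Module.End κ V)) = 2 * c ∧
      LinearMap.det (c • (1 : Module.End κ V)) = c ^ 2 := by
  haveI : Module.Finite κ V := Module.finite_of_finrank_eq_succ hV
  constructor
  · rw [map_smul, LinearMap.trace_one, hV, smul_eq_mul, mul_comm]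
    norm_num
  · rw [LinearMap.det_smul, hV]
    show c ^ 2 * LinearMap.det (LinearMap.id : V →ₗ[κ] V) = c ^ 2
    rw [LinearMap.det_id, mul_one]

/-- **An endomorphism of a plane killed by `X² - a X + l` has trace `a` and determinant `l`**,
provided this is so when it is a scalar. -/
theorem trace_det_of_quadratic (hV : Module.finrank κ V = 2) (M : Module.End κ V) (a l : κ)
    (hq : M * M - a • M + l • (1 : Module.End κ V) = 0)
    (hscal : ∀ c : κ, M = c • (1 : Module.End κ V) → a = 2 * c ∧ l = c ^ 2) :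
    LinearMap.trace κ V M = a ∧ LinearMap.det M = l := by
  haveI : Module.Finite κ V := Module.finite_of_finrank_eq_succ hV
  haveI : Nontrivial V := Module.nontrivial_of_finrank_pos (R := κ) (by rw [hV]; norm_num)
  set t := LinearMap.trace κ V M with ht
  set d := LinearMap.det M with hd
  -- Cayley–Hamilton
  have hCH : M * M - t • M + d • (1 : Module.End κ V) = 0 := by
    have h := LinearMap.aeval_self_charpoly M
    rw [charpoly_of_finrank_two hV M] at h
    simp only [map_add, map_sub, map_mul, map_pow, aeval_X, aeval_C] at h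
    rw [pow_two, Algebra.algebraMap_eq_smul_one, Algebra.algebraMap_eq_smul_one,
      smul_mul_assoc, one_mul] at h
    exact h
  -- the difference
  have hdiff : (t - a) • M = (d - l) • (1 : Module.End κ V) := by
    have h1 : (t - a) • M - (d - l) • (1 : Module.End κ V) =
        (M * M - a • M + l • (1 : Module.End κ V)) -
          (M * M - t • M + d • (1 : Module.End κ V)) := by
      rw [sub_smul, sub_smul]; abel
    rw [hq, hCH, sub_zero] at h1
    exact sub_eq_zero.mp h1
  have hone : ∀ c : κ, c • (1 : Module.End κ V) = 0 → c = 0 := by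
    intro c hc
    obtain ⟨v, hv⟩ := exists_ne (0 : V)
    have h1 : c • v = 0 := by
      have := congrArg (fun T : Module.End κ V => T v) hc
      simpa using this
    exact (smul_eq_zero.mp h1).resolve_right hv
  by_cases hta : t = a
  · refine ⟨hta, ?_⟩
    rw [hta, sub_self, zero_smul] at hdiff
    exact (sub_eq_zero.mp (hone _ hdiff.symm))
  · exfalso
    have hne : t - a ≠ 0 := sub_ne_zero.mpr hta
    have hM : M = ((t - a)⁻¹ * (d - l)) • (1 : Module.End κ V) := by
      have := congrArg (fun T : Module.End κ V => (t - a)⁻¹ • T) hdiff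
      simp only [smul_smul, inv_mul_cancel₀ hne, one_smul] at this
      exact this
    obtain ⟨h1, -⟩ := hscal _ hM
    apply hta
    rw [ht, hM, (trace_det_smul_one hV _).1, ← h1]

end LinAlg

/-! ### the plane `W[p]` -/

section Plane

variable (W : WeierstrassCurve ℤ)

theorem Δ_WQ_Qb_ne_zero (hΔ : W.Δ ≠ 0) : ((WQ W).toAffine⁄Qb).Δ ≠ 0 := by
  show ((W.map (Int.castRingHom ℚ)).map (algebraMap ℚ Qb)).Δ ≠ 0
  rw [WeierstrassCurve.map_Δ, WeierstrassCurve.map_Δ]
  simpa using hΔ

/-- `# W[p](ℚ̄) = p²`. -/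
theorem card_Vp (hΔ : W.Δ ≠ 0) {p : ℕ} (hp : p.Prime) : Nat.card (Vp W p) = p ^ 2 :=
  Fermat.Agent.EC.Tor.Main.card_torsion ((WQ W).toAffine⁄Qb) (Δ_WQ_Qb_ne_zero W hΔ)
    (Nat.cast_ne_zero.mpr hp.ne_zero)

theorem finite_Vp (hΔ : W.Δ ≠ 0) {p : ℕ} (hp : p.Prime) : Finite (Vp W p) :=
  Fermat.Agent.EC.Tor.Main.finite_torsion ((WQ W).toAffine⁄Qb) (Δ_WQ_Qb_ne_zero W hΔ)
    (Nat.cast_ne_zero.mpr hp.ne_zero)

/-- `dim W[p] = 2`. -/
theorem finrank_Vp (hΔ : W.Δ ≠ 0) {p : ℕ} [Fact p.Prime] :
    Module.finrank (ZMod p) (Vp W p) = 2 :=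
  finrank_Vp_eq_two W (card_Vp W hΔ Fact.out)

end Plane

/-! ### Frobenius elements -/

section Frob

variable (W : WeierstrassCurve ℤ) (hΔ : W.Δ ≠ 0) {p l : ℕ} (hp : p.Prime) (hl : l.Prime)
  (hlp : l ≠ p) (hg : W.IsGoodPrimeFor l) (A : ValuationSubring Qb) (hA : A.LiesOverPrime l)
  (φ : GQ) (hφ : A.IsFrobeniusAt φ l)

include hp hl hlp hg hA hφ in
/-- the landed Cayley–Hamilton on a `p`-torsion point -/
theorem frob_quadratic_point {P : ((WQ W)⁄Qb).Point} (hP : p • P = 0) :
    φ • φ • P + (l : ℤ) • P = W.apOfModel l • (φ • P) :=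
  Fermat.Agent.SW.K4.CharEq.frob_charEq W hl hg A hA φ hφ
    (Fermat.Agent.SW.K4.CharEq.charEqAt_of_export W hl hg A hA
      Fermat.Agent.SW.K4.Done.frobCharEq)
    ((Nat.coprime_primes hp hl).mpr hlp.symm) hP

theorem nsmul_coe_Vp (x : Vp W p) : p • (x : ((WQ W)⁄Qb).Point) = 0 := by
  have h := x.2
  rw [Submodule.mem_torsionBy_iff, natCast_zsmul] at h
  exact h

include hp hl hlp hg hA hφ in
/-- `ρ̄(φ)² - a_l ρ̄(φ) + l = 0` on `W[p]`. -/
theorem rhoV_frob_quadratic [Fact p.Prime] :
    rhoV W p φ * rhoV W p φ - ((W.apOfModel l : ℤ) : ZMod p) • rhoV W p φ +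
      ((l : ℕ) : ZMod p) • (1 : Module.End (ZMod p) (Vp W p)) = 0 := by
  refine LinearMap.ext fun x => Subtype.ext ?_
  have h := frob_quadratic_point W hp hl hlp hg A hA φ hφ (nsmul_coe_Vp W x)
  simp only [LinearMap.add_apply, LinearMap.sub_apply, LinearMap.smul_apply,
    Module.End.mul_apply, Module.End.one_apply, LinearMap.zero_apply, rhoV_apply,
    Int.cast_smul_eq_zsmul, Nat.cast_smul_eq_nsmul]
  show φ • φ • (x : ((WQ W)⁄Qb).Point) - W.apOfModel l • (φ • (x : ((WQ W)⁄Qb).Point)) +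
    l • (x : ((WQ W)⁄Qb).Point) = 0
  rw [← h, natCast_zsmul]
  abel

include hΔ hp hl hlp hg hA hφ in
/-- the scalar case, by the Frobenius eigenvalue criterion -/
theorem scalar_case [Fact p.Prime] (c : ZMod p)
    (hM : rhoV W p φ = c • (1 : Module.End (ZMod p) (Vp W p))) :
    ((W.apOfModel l : ℤ) : ZMod p) = 2 * c ∧ ((l : ℕ) : ZMod p) = c ^ 2 := by
  haveI : Nontrivial (Vp W p) :=
    Module.nontrivial_of_finrank_pos (R := ZMod p) (by rw [finrank_Vp W hΔ]; norm_num)
  have hone : ∀ e : ZMod p, e • (1 : Module.End (ZMod p) (Vp W p)) = 0 → e = 0 := by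
    intro e he
    obtain ⟨v, hv⟩ := exists_ne (0 : Vp W p)
    have h1 : e • v = 0 := by
      have := congrArg (fun T : Module.End (ZMod p) (Vp W p) => T v) he
      simpa using this
    exact (smul_eq_zero.mp h1).resolve_right hv
  set a : ZMod p := ((W.apOfModel l : ℤ) : ZMod p) with ha
  -- `c² - a c + l = 0`
  have hq := rhoV_frob_quadratic W hp hl hlp hg A hA φ hφ
  rw [hM] at hq
  have hq' : (c * c - a * c + ((l : ℕ) : ZMod p)) • (1 : Module.End (ZMod p) (Vp W p)) = 0 := by
    rw [add_smul, sub_smul, mul_smul, mul_smul]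
    rw [smul_mul_assoc, one_mul] at hq
    exact hq
  have hc : c * c - a * c + ((l : ℕ) : ZMod p) = 0 := hone _ hq'
  -- the other root
  set c' : ZMod p := a - c with hc'
  set n' : ℤ := ((c'.val : ℕ) : ℤ) with hn'
  have hn'c : ((n' : ℤ) : ZMod p) = c' := by
    rw [hn', Int.cast_natCast, ZMod.natCast_zmod_val]
  have hdvd : (p : ℤ) ∣ n' ^ 2 - W.apOfModel l * n' + (l : ℤ) := by
    rw [← ZMod.intCast_zmod_eq_zero_iff_dvd]
    push_cast
    rw [hn'c, ← ha, hc']
    linear_combination hc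
  obtain ⟨P, hP0, hpP, hφP⟩ :=
    (Fermat.Agent.EC.Good.MainStar.good_eigen_all Fermat.Agent.EC.Coeff.Done.starExport W hΔ
      hl hp hlp hg A hA φ hφ n').mpr hdvd
  have hPm : P ∈ Submodule.torsionBy ℤ ((WQ W)⁄Qb).Point p := by
    rw [Submodule.mem_torsionBy_iff, natCast_zsmul]; exact hpP
  set x : Vp W p := ⟨P, hPm⟩ with hx
  have hx0 : x ≠ 0 := fun h => hP0 (congrArg Subtype.val h)
  have h1 : c • x = c' • x := by
    have h2 : rhoV W p φ x = c • x := by rw [hM]; rfl
    rw [← h2, ← hn'c, Int.cast_smul_eq_zsmul]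
    exact Subtype.ext hφP
  have hcc' : c = c' := by
    have h3 : (c - c') • x = 0 := by rw [sub_smul, h1, sub_self]
    exact sub_eq_zero.mp ((smul_eq_zero.mp h3).resolve_right hx0)
  have h2c : a = 2 * c := by
    have : c = a - c := hcc'
    linear_combination (-1 : ZMod p) * this
  refine ⟨h2c, ?_⟩
  rw [h2c] at hc
  linear_combination hc

include hΔ hp hl hlp hg hA hφ in
/-- **trace and determinant of a Frobenius element on `W[p]`**. -/
theorem trace_det_rhoV_frob :
    LinearMap.trace (ZMod p) (Vp W p) (rhoV W p φ) = ((W.apOfModel l : ℤ) : ZMod p) ∧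
      LinearMap.det (rhoV W p φ) = ((l : ℕ) : ZMod p) := by
  haveI : Fact p.Prime := ⟨hp⟩
  exact trace_det_of_quadratic (finrank_Vp W hΔ) (rhoV W p φ) _ _
    (rhoV_frob_quadratic W hp hl hlp hg A hA φ hφ)
    (scalar_case W hΔ hp hl hlp hg A hA φ hφ)

include hΔ hp hl hlp hg hA hφ in
/-- **(E1)** `tr ρ̄_W(Frob_l) = a_l(W)` in `𝔽_p`. -/
theorem trace_rhoV_frob :
    LinearMap.trace (ZMod p) (Vp W p) (rhoV W p φ) = ((W.apOfModel l : ℤ) : ZMod p) :=
  (trace_det_rhoV_frob W hΔ hp hl hlp hg A hA φ hφ).1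

include hΔ hp hl hlp hg hA hφ in
/-- **(E2)** `det ρ̄_W(Frob_l) = l` in `𝔽_p`. -/
theorem det_rhoV_frob :
    LinearMap.det (rhoV W p φ) = ((l : ℕ) : ZMod p) :=
  (trace_det_rhoV_frob W hΔ hp hl hlp hg A hA φ hφ).2

end Frob

end Fermat.Agent.FF4.KV2
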