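import Fermat.Agent.FF4.KV2.Core
import Fermat.Agent.FF4.KV4.Seam

/-!
# PROGRAMME II (row 38, S44): the kernel (K-V), assembled (helper5)

`kV : KV W p M'` in the vocabulary of `FF4/S40Skeleton` (helper4), from

* the seed inside the Kummer span (`FF4/KV4/KummerSpan`, helper9): `x := rho y ≠ 0` for the
  eigenclass `y` of `HasEigenclass W p (M' p) (M' p)`;
* `E` := the eigenvectors (for the good `T_l`, eigenvalues `a_l(W)`) inside `kummerSpan M' p`:
  a nonzero `G_ℚ`-stable subgroup killed by `p`;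
* KV-2 ∘ KV-3 (`KV2/Core.exists_stable_subgroup_iso`): `V ≤ E`, `G_ℚ`-stable, `≃+ W[p]`
  equivariantly;
* the span trick (`KV4/Seam.isNew_of_le_kummerSpan`): `V ≤ kummerSpan` is `p`-new.
-/

set_option autoImplicit false
set_option linter.unusedSectionVars false
set_option linter.unusedVariables false
set_option linter.style.haveILetI false
set_option synthInstance.maxHeartbeats 400000
set_option maxHeartbeats 1000000

noncomputable section

open WeierstrassCurve WeierstrassCurve.Affine WeierstrassCurve.Affine.Point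
open scoped WeierstrassCurve.Affine
open ModularCurve

namespace Fermat.Agent.FF4.KV2

open Fermat.Agent.LR.NonEis Fermat.Agent.Jac Fermat.Agent.FF4.S40Skeleton Fermat.Agent.FF4.KV4

local notation "Qb" => AlgebraicClosure ℚ
local notation "GQ" => (AlgebraicClosure ℚ ≃ₐ[ℚ] AlgebraicClosure ℚ)

variable (W : WeierstrassCurve ℤ) {p M' : ℕ} [NeZero M'] [NeZero p] [NeZero (M' * p)]

/-- the eigenvectors of the good Hecke operators inside the Kummer span -/
def eigenSpan (hp : p.Prime) (hpM' : ¬ p ∣ M') : AddSubgroup (JZero (M' * p)) where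
  carrier := {x | x ∈ kummerSpan M' p hp hpM' ∧ ∀ l : Nat.Primes, Good W p (M' * p) l →
    heckeOperatorBar (M' * p) l x = (W.apOfModel l) • x}
  zero_mem' := ⟨(kummerSpan M' p hp hpM').zero_mem, fun l _ => by rw [_root_.map_zero, zsmul_zero]⟩
  add_mem' := by
    rintro x y ⟨hx, hx'⟩ ⟨hy, hy'⟩
    exact ⟨(kummerSpan M' p hp hpM').add_mem hx hy, fun l hl => by
      rw [_root_.map_add, hx' l hl, hy' l hl, zsmul_add]⟩
  neg_mem' := by
    rintro x ⟨hx, hx'⟩
    exact ⟨(kummerSpan M' p hp hpM').neg_mem hx, fun l hl => by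
      rw [_root_.map_neg, hx' l hl, zsmul_neg]⟩

theorem mem_eigenSpan (hp : p.Prime) (hpM' : ¬ p ∣ M') {x : JZero (M' * p)} :
    x ∈ eigenSpan W hp hpM' ↔ x ∈ kummerSpan M' p hp hpM' ∧ ∀ l : Nat.Primes,
      Good W p (M' * p) l → heckeOperatorBar (M' * p) l x = (W.apOfModel l) • x :=
  Iff.rfl

/-- the seed: the Kummer image of an eigenclass -/
theorem exists_seed_eigenSpan (hp : p.Prime) (hpM' : ¬ p ∣ M')
    (hE : HasEigenclass W p (M' * p) (M' * p)) :
    ∃ x ∈ eigenSpan W hp hpM', x ≠ 0 := by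
  obtain ⟨y, hy0, hy⟩ := hE
  refine ⟨rho M' p hp hpM' y, ⟨rho_mem_kummerSpan M' p hp hpM' y, fun l hl => ?_⟩, ?_⟩
  · obtain ⟨z, hz⟩ := hy l hl
    have h1 : TLam (M' * p) l y = (W.apOfModel l) • y + (p : ℤ) • z := by
      rw [← hz]; abel
    rw [← rho_TLam, h1, map_add, map_zsmul, map_zsmul, natCast_zsmul, nsmul_rho, add_zero]
  · intro h0
    obtain ⟨z, hz⟩ := (rho_eq_zero_iff M' p hp hpM' y).mp h0
    exact hy0 ⟨z, by rw [hz, natCast_zsmul]⟩

/-- **(K-V)**, in the skeleton's literal. -/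
theorem kV (hΔ : W.Δ ≠ 0) (hp : p.Prime) (hp2 : p ≠ 2) (hpM' : ¬ p ∣ M') : KV W p M' := by
  intro hirr hE t ht
  obtain ⟨V, hVE, hVstab, iso, hiso⟩ :=
    exists_stable_subgroup_iso W hΔ hp (M' * p) hp2 hirr (eigenSpan W hp hpM')
      (fun x hx => nsmul_eq_zero_of_mem_kummerSpan M' p hp hpM' hx.1)
      (fun σ x hx => ⟨smul_mem_kummerSpan M' p hp hpM' σ hx.1, fun l hl => by
        rw [heckeOperatorBar_galois_smul, hx.2 l hl, galois_zsmul]⟩)
      (exists_seed_eigenSpan W hp hpM' hE) ∅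
      (fun x hx l _ h1 h2 h3 => hx.2 l ⟨h1, h2, h3⟩)
  let P : VPack W p (M' * p) :=
    { V := V
      tors := fun v hv => nsmul_eq_zero_of_mem_kummerSpan M' p hp hpM' (hVE hv).1
      stable := hVstab
      eigen := fun l hl v hv => (hVE hv).2 l hl
      iso := iso
      iso_equivariant := hiso }
  exact ⟨P, isNew_of_le_kummerSpan hp hpM' ht P fun v hv => (hVE hv).1⟩

end Fermat.Agent.FF4.KV2
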