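import Fermat.Agent.FF4.KV2.FrobCharpoly
import Fermat.Agent.S37
import Fermat.Agent.Res.Formal
import Fermat.Agent.Res.OpenStab
import Fermat.Agent.Res.FreyFiniteLevel
import Fermat.Agent.Cheb.Cross.ChebExactMain
import Fermat.Agent.Pseudo.CycloPow
import Fermat.Agent.Jac.HeckeGalois
import Fermat.Agent.Jac.HeckeCommUncond

/-!
# PROGRAMME II (row 38, S44), kernel (K-V), leaf KV-2, part 2 (helper5):
Eichler–Shimura + Chebotarev on the eigenvectors of `J₀(L)[p]`

`W` an integral Weierstrass model with `Δ ≠ 0`, `p` a prime, `ρ̄ := rhoV W p` the representation of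
`G_ℚ` on `W[p](ℚ̄)`.

* **`det_rhoV_eq_cycloN`** (E3) : `det ρ̄(σ) = χ_p(σ)` for EVERY `σ ∈ G_ℚ` (`det ρ̄(Frob_l) = l` +
  exact Chebotarev + the cyclotomic character at Frobenius elements);
  `det_rhoV_complexConjugation` : `det ρ̄(c) = -1`;
  `det_rhoV_eq_cycloLift` : the same with the integral lift `Cyclo.cycloLift p σ`;
* **`galois_quadratic_of_eigen`** (J = KV-2) : for `x ∈ J₀(L)(ℚ̄)` with `p • x = 0` and
  `T_l x = a_l(W) • x` for all good `l ∤ L p` outside a finite set, every `σ ∈ G_ℚ` satisfies on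
  `x` the characteristic polynomial of `ρ̄(σ)`:
  `σ² x - tr ρ̄(σ) • σ x + det ρ̄(σ) • x = 0` (for any integral lifts of the trace and the
  determinant).  Inputs: landed S37 (`Res.frobeniusQuadratic_of_specializationExists`), open
  stabilisers on `J₀(L)` (`Res.exists_finite_fixing_JZero`), the finite level of `W[p]`, exact
  Chebotarev (`Cheb.chebExact`), `Jac.heckeOperatorBar_galois_smul`, and (E1), (E2).
-/

set_option autoImplicit false
set_option linter.unusedSectionVars false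
set_option linter.unusedVariables false
set_option linter.style.haveILetI false

open WeierstrassCurve WeierstrassCurve.Affine WeierstrassCurve.Affine.Point
open scoped WeierstrassCurve.Affine
open ModularCurve

namespace Fermat.Agent.FF4.KV2

open Fermat.Agent.LR.NonEis Fermat.Agent.Pseudo.Cyclo Fermat.Agent.Jac

local notation "Qb" => AlgebraicClosure ℚ
local notation "GQ" => (AlgebraicClosure ℚ ≃ₐ[ℚ] AlgebraicClosure ℚ)

/-! ### (E3) the determinant is the cyclotomic character -/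

section Det

variable (W : WeierstrassCurve ℤ) (hΔ : W.Δ ≠ 0) {p : ℕ} (hp : p.Prime)

include hΔ hp in
/-- **(E3)** `det ρ̄_W(σ) = χ_p(σ)` for every `σ ∈ G_ℚ`. -/
theorem det_rhoV_eq_cycloN [NeZero p] (σ : GQ) :
    LinearMap.det (rhoV W p σ) = ((cycloN p σ : (ZMod p)ˣ) : ZMod p) := by
  haveI := finite_Vp W hΔ hp
  obtain ⟨LV, hLVfd, hLV⟩ :=
    Fermat.Agent.Res.FreyLevel.galoisFactorsThroughFiniteLevel_of_finite (WQ W) p
  obtain ⟨Lm, hLmfd, hLm⟩ := exists_finite_level_cycloN p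
  have hfd : FiniteDimensional ℚ ↥(LV ⊔ Lm) := IntermediateField.finiteDimensional_sup LV Lm
  obtain ⟨l, hl, hlT, A, φ, hA, hφ, hσφ⟩ :=
    Fermat.Agent.Cheb.chebExact (LV ⊔ Lm) hfd σ (badSet W 1 p 1 ∅)
  obtain ⟨-, -, hlp, -, hgood⟩ :=
    not_mem_badSet W (N := 1) one_pos hp one_pos hΔ hl hlT
  have hρ : rhoV W p σ = rhoV W p φ :=
    map_eq_of_agree (rhoV W p) hLV fun x hx => hσφ x ((le_sup_left : LV ≤ LV ⊔ Lm) hx)
  have hcyc : cycloN p σ = cycloN p φ :=
    hLm σ φ fun x hx => hσφ x ((le_sup_right : Lm ≤ LV ⊔ Lm) hx)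
  have hlnp : ¬ l ∣ p := fun h => hlp ((Nat.prime_dvd_prime_iff_eq hl hp).mp h)
  rw [hρ, hcyc, det_rhoV_frob W hΔ hp hl hlp hgood A hA φ hφ,
    cycloN_frobenius p hl hlnp A hA hφ]

include hΔ hp in
/-- `det ρ̄_W(σ)` is the integral lift of the cyclotomic character. -/
theorem det_rhoV_eq_cycloLift [NeZero p] (σ : GQ) :
    LinearMap.det (rhoV W p σ) = ((cycloLift p σ : ℤ) : ZMod p) := by
  rw [cycloLift_cast, det_rhoV_eq_cycloN W hΔ hp σ]

include hΔ hp in
/-- `det ρ̄_W(c) = -1`. -/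
theorem det_rhoV_complexConjugation [NeZero p] :
    LinearMap.det (rhoV W p complexConjugation) = -1 := by
  rw [det_rhoV_eq_cycloN W hΔ hp, cycloN_complexConjugation]

end Det

/-! ### (J) the quadratic relation on an eigenvector -/

section Quadratic

variable (W : WeierstrassCurve ℤ) (hΔ : W.Δ ≠ 0) {p : ℕ} (hp : p.Prime)
  (L : ℕ) [NeZero L]

/-- `(n - m) • y = 0` if `p ∣ n - m` and `p • y = 0`. -/
theorem zsmul_eq_zsmul_of_dvd {Y : Type*} [AddCommGroup Y] {p : ℕ} {y : Y} (hy : p • y = 0)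
    {n m : ℤ} (h : (p : ℤ) ∣ n - m) : n • y = m • y := by
  obtain ⟨c, hc⟩ := h
  have h1 : n = m + (p : ℤ) * c := by linarith
  rw [h1, add_zsmul, mul_comm, mul_zsmul, natCast_zsmul, hy, zsmul_zero, add_zero]

/-- the Galois action commutes with multiplication by integers -/
theorem galois_zsmul (σ : GQ) (n : ℤ) (y : JZero L) : σ • (n • y) = n • (σ • y) :=
  map_zsmul (DistribSMul.toAddMonoidHom (JZero L) σ) n y

theorem galois_nsmul (σ : GQ) (n : ℕ) (y : JZero L) : σ • (n • y) = n • (σ • y) :=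
  map_nsmul (DistribSMul.toAddMonoidHom (JZero L) σ) n y

include hΔ hp in
/-- **(J) = KV-2.**  On a `p`-torsion eigenvector `x` of the good Hecke operators with the
eigenvalues of `W`, every `σ ∈ G_ℚ` satisfies the characteristic polynomial of `ρ̄_W(σ)`. -/
theorem galois_quadratic_of_eigen (T : Finset ℕ) (x : JZero L) (hpx : p • x = 0)
    (heig : ∀ l : Nat.Primes, (l : ℕ) ∉ T → W.IsGoodPrimeFor l → ¬ (l : ℕ) ∣ L → (l : ℕ) ≠ p →
      heckeOperatorBar L l x = (W.apOfModel l) • x)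
    (σ : GQ) (a d : ℤ)
    (ha : ((a : ℤ) : ZMod p) = LinearMap.trace (ZMod p) (Vp W p) (rhoV W p σ))
    (hd : ((d : ℤ) : ZMod p) = LinearMap.det (rhoV W p σ)) :
    σ • σ • x - a • (σ • x) + d • x = 0 := by
  haveI := finite_Vp W hΔ hp
  haveI : Fact p.Prime := ⟨hp⟩
  have hLpos : 0 < L := Nat.pos_of_ne_zero (NeZero.ne L)
  -- finite levels
  obtain ⟨L1, hL1fd, hL1⟩ := Fermat.Agent.Res.exists_finite_fixing_JZero L x
  obtain ⟨L2, hL2fd, hL2⟩ := Fermat.Agent.Res.exists_finite_fixing_JZero L (σ • x)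
  obtain ⟨LV, hLVfd, hLV⟩ :=
    Fermat.Agent.Res.FreyLevel.galoisFactorsThroughFiniteLevel_of_finite (WQ W) p
  have hfd12 : FiniteDimensional ℚ ↥(L1 ⊔ L2) := IntermediateField.finiteDimensional_sup L1 L2
  have hfd : FiniteDimensional ℚ ↥(L1 ⊔ L2 ⊔ LV) :=
    IntermediateField.finiteDimensional_sup (L1 ⊔ L2) LV
  obtain ⟨l, hl, hlT, A, φ, hA, hφ, hσφ⟩ :=
    Fermat.Agent.Cheb.chebExact (L1 ⊔ L2 ⊔ LV) hfd σ (badSet W L p 1 T)
  obtain ⟨hlT', hlL, hlp, -, hgood⟩ :=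
    not_mem_badSet W (N := L) hLpos hp one_pos hΔ hl hlT
  have hle1 : L1 ≤ L1 ⊔ L2 ⊔ LV := le_sup_left.trans le_sup_left
  have hle2 : L2 ≤ L1 ⊔ L2 ⊔ LV := le_sup_right.trans le_sup_left
  have hleV : LV ≤ L1 ⊔ L2 ⊔ LV := le_sup_right
  -- `σ` and `φ` agree on `x` and on `σ • x`
  have hfix : ∀ (F : IntermediateField ℚ Qb), F ≤ L1 ⊔ L2 ⊔ LV → ∀ y : JZero L,
      (∀ τ : GQ, (∀ z ∈ F, τ z = z) → τ • y = y) → σ • y = φ • y := by
    intro F hF y hy
    have h1 : (φ⁻¹ * σ) • y = y := hy _ fun z hz => by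
      rw [AlgEquiv.mul_apply, hσφ z (hF hz)]
      exact φ.symm_apply_apply z
    rw [mul_smul, inv_smul_eq_iff] at h1
    exact h1
  have hx1 : σ • x = φ • x := hfix L1 hle1 x hL1
  have hx2 : σ • σ • x = φ • φ • x := by
    rw [hfix L2 hle2 (σ • x) hL2, hx1]
  -- Eichler–Shimura at `l`
  have hES : φ • φ • x - W.apOfModel l • (φ • x) + l • x = 0 := by
    letI := heckeModuleBar L
    haveI := smulCommClass_GQ_heckeAlg L
    have hFQ : FrobeniusQuadratic (K := ℚ) (L := Qb) L p (JZero L) :=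
      Fermat.Agent.Res.frobeniusQuadratic_of_specializationExists L p (JZero L)
        (Fermat.Agent.S37.result L p (heckeOperatorsCommuteBar L) inferInstance)
    have hnd : ¬ l ∣ L * p := fun h =>
      (hl.dvd_mul.mp h).elim hlL fun h' => hlp ((Nat.prime_dvd_prime_iff_eq hl hp).mp h')
    obtain ⟨ll, hll⟩ : ∃ ll : Nat.Primes, (ll : ℕ) = l := ⟨⟨l, hl⟩, rfl⟩
    have h1 : φ • φ • x - heckeGen ll • (φ • x) + l • x = 0 := by
      subst hll
      exact hFQ _ hl hnd A hA φ hφ x ⟨1, by rw [pow_one]; exact hpx⟩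
    have e1 : heckeOperatorBar L ll (φ • x) = W.apOfModel l • (φ • x) := by
      rw [heckeOperatorBar_galois_smul, heig ll (hll ▸ hlT') (hll ▸ hgood) (hll ▸ hlL)
        (hll ▸ hlp), galois_zsmul, hll]
    rw [heckeGen_smul_eq L ll (φ • x), e1] at h1
    exact h1
  -- trace and determinant
  have hρ : rhoV W p σ = rhoV W p φ :=
    map_eq_of_agree (rhoV W p) hLV fun z hz => hσφ z (hleV hz)
  have ha' : (p : ℤ) ∣ a - W.apOfModel l := by
    rw [← ZMod.intCast_zmod_eq_zero_iff_dvd, Int.cast_sub, ha, hρ,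
      trace_rhoV_frob W hΔ hp hl hlp hgood A hA φ hφ, sub_self]
  have hd' : (p : ℤ) ∣ d - (l : ℤ) := by
    rw [← ZMod.intCast_zmod_eq_zero_iff_dvd, Int.cast_sub, hd, hρ,
      det_rhoV_frob W hΔ hp hl hlp hgood A hA φ hφ, Int.cast_natCast, sub_self]
  have hpφx : p • (φ • x) = 0 := by
    rw [← galois_nsmul L φ p x, hpx]
    exact smul_zero (A := JZero L) φ
  rw [hx2, hx1, zsmul_eq_zsmul_of_dvd hpφx ha', zsmul_eq_zsmul_of_dvd hpx hd', natCast_zsmul]
  exact hES

end Quadratic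

end Fermat.Agent.FF4.KV2
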